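/-
S24, package AN-EXP (backup seat helper62): uniqueness of expansions at `i∞`.

`HasExp atImInfty (qN N) f L` determines `L`; `L = 0` iff `f` vanishes near `i∞`; the order
and the leading coefficient of `L` can be read off from limits along `atImInfty`.
-/
import Mathlib
import Fermat.Agent.S24.ModDefs

set_option autoImplicit false

open UpperHalfPlane Filter Topology

noncomputable section

namespace Fermat.Agent.S24.H62

/-! ### The local parameter `qN N` -/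

theorem qN_ne_zero (N : ℕ) (τ : ℍ) : qN N τ ≠ 0 :=
  Function.Periodic.qParam_ne_zero _

theorem norm_qN (N : ℕ) (τ : ℍ) : ‖qN N τ‖ = Real.exp (-2 * Real.pi * τ.im / N) := by
  rw [qN, Function.Periodic.norm_qParam]
  rfl

theorem tendsto_qN_nhdsNE (N : ℕ) [NeZero N] : Tendsto (qN N) atImInfty (𝓝[≠] 0) := by
  have hN : (0 : ℝ) < N := by exact_mod_cast Nat.pos_of_ne_zero (NeZero.ne N)
  exact (Function.Periodic.qParam_tendsto hN).comp tendsto_coe_atImInfty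

theorem tendsto_qN_nhds (N : ℕ) [NeZero N] : Tendsto (qN N) atImInfty (𝓝 0) :=
  (tendsto_qN_nhdsNE N).mono_right nhdsWithin_le_nhds

/-! ### Reindexing a Laurent sum bounded below -/

theorem hasSum_int_iff_nat {L : LaurentSeries ℂ} {m : ℤ} (hm : ∀ n < m, L.coeff n = 0)
    {u : ℂ} (hu : u ≠ 0) (s : ℂ) :
    HasSum (fun n : ℤ => L.coeff n * u ^ n) s ↔
      HasSum (fun k : ℕ => L.coeff (m + k) * u ^ k) (s / u ^ m) := by
  have hinj : Function.Injective (fun k : ℕ => m + (k : ℤ)) := by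
    intro a b h
    simpa using h
  have hsupp : ∀ n ∉ Set.range (fun k : ℕ => m + (k : ℤ)), L.coeff n * u ^ n = 0 := by
    intro n hn
    have : n < m := by
      by_contra h
      push Not at h
      exact hn ⟨(n - m).toNat, by simp [Int.toNat_of_nonneg (sub_nonneg.mpr h)]⟩
    rw [hm n this, zero_mul]
  rw [← hinj.hasSum_iff hsupp]
  have hum : u ^ m ≠ 0 := zpow_ne_zero _ hu
  have e : ((fun n : ℤ => L.coeff n * u ^ n) ∘ fun k : ℕ => m + (k : ℤ)) =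
      fun k : ℕ => u ^ m * (L.coeff (m + k) * u ^ k) := by
    funext k
    simp only [Function.comp_apply]
    rw [zpow_add₀ hu, zpow_natCast]
    ring
  rw [e]
  constructor
  · intro h
    have := h.mul_left (u ^ m)⁻¹
    simpa [← mul_assoc, inv_mul_cancel₀ hum, div_eq_inv_mul] using this
  · intro h
    have := h.mul_left (u ^ m)
    rwa [mul_div_cancel₀ _ hum] at this

/-! ### A tail bound for power series -/

theorem exists_tail_bound {c : ℕ → ℂ} {z₀ : ℂ} (hz₀ : z₀ ≠ 0)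
    (hs : Summable (fun k : ℕ => c k * z₀ ^ k)) :
    ∃ M : ℝ, ∀ z : ℂ, ‖z‖ ≤ ‖z₀‖ / 2 → ∀ s : ℂ, HasSum (fun k : ℕ => c k * z ^ k) s →
      ‖s - c 0‖ ≤ M * ‖z‖ := by
  obtain ⟨M₀, hM₀⟩ : ∃ M₀ : ℝ, ∀ k, ‖c k * z₀ ^ k‖ ≤ M₀ := by
    have h0 := hs.tendsto_atTop_zero
    obtain ⟨M₀, hM₀⟩ := (Metric.isBounded_range_of_tendsto _ h0).exists_norm_le
    exact ⟨M₀, fun k => hM₀ _ ⟨k, rfl⟩⟩
  have hM₀0 : 0 ≤ M₀ := (norm_nonneg _).trans (hM₀ 0)
  have hz₀n : 0 < ‖z₀‖ := norm_pos_iff.mpr hz₀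
  refine ⟨2 * M₀ / ‖z₀‖, fun z hz s hsum => ?_⟩
  have hsum1 : HasSum (fun k : ℕ => c (k + 1) * z ^ (k + 1)) (s - c 0) := by
    have := (hasSum_nat_add_iff' 1).mpr hsum
    simpa using this
  have hr : ‖z‖ / ‖z₀‖ ≤ 1 / 2 := by
    rw [div_le_iff₀ hz₀n]
    linarith
  have hr0 : 0 ≤ ‖z‖ / ‖z₀‖ := div_nonneg (norm_nonneg _) hz₀n.le
  have hbound : ∀ k : ℕ, ‖c (k + 1) * z ^ (k + 1)‖ ≤ M₀ * (‖z‖ / ‖z₀‖) * (1 / 2 : ℝ) ^ k := by
    intro k
    have h1 : c (k + 1) * z ^ (k + 1) = c (k + 1) * z₀ ^ (k + 1) * (z / z₀) ^ (k + 1) := by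
      rw [div_pow]
      field_simp
    rw [h1, norm_mul, norm_pow, norm_div]
    calc ‖c (k + 1) * z₀ ^ (k + 1)‖ * (‖z‖ / ‖z₀‖) ^ (k + 1)
        ≤ M₀ * (‖z‖ / ‖z₀‖) ^ (k + 1) :=
          mul_le_mul_of_nonneg_right (hM₀ _) (pow_nonneg hr0 _)
      _ = M₀ * (‖z‖ / ‖z₀‖) * (‖z‖ / ‖z₀‖) ^ k := by ring
      _ ≤ M₀ * (‖z‖ / ‖z₀‖) * (1 / 2 : ℝ) ^ k :=
          mul_le_mul_of_nonneg_left (pow_le_pow_left₀ hr0 hr k) (mul_nonneg hM₀0 hr0)
  have hgeo : HasSum (fun k : ℕ => M₀ * (‖z‖ / ‖z₀‖) * (1 / 2 : ℝ) ^ k)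
      (M₀ * (‖z‖ / ‖z₀‖) * 2) := by
    have := (hasSum_geometric_two).mul_left (M₀ * (‖z‖ / ‖z₀‖))
    simpa using this
  have := hsum1.norm_le_of_bounded hgeo hbound
  calc ‖s - c 0‖ ≤ M₀ * (‖z‖ / ‖z₀‖) * 2 := this
    _ = 2 * M₀ / ‖z₀‖ * ‖z‖ := by ring

/-! ### Limits along the filter determine the coefficients -/

theorem hasExp_eventually {𝔣 : Filter ℍ} {u f : ℍ → ℂ} {L : LaurentSeries ℂ}
    (h : HasExp 𝔣 u f L) : ∀ᶠ τ in 𝔣, HasSum (fun n : ℤ => L.coeff n * u τ ^ n) (f τ) := h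

theorem eventually_ne_zero_of_tendsto {𝔣 : Filter ℍ} {u : ℍ → ℂ} (hu : Tendsto u 𝔣 (𝓝[≠] 0)) :
    ∀ᶠ τ in 𝔣, u τ ≠ 0 :=
  hu.eventually self_mem_nhdsWithin

theorem tendsto_norm_of_tendsto {𝔣 : Filter ℍ} {u : ℍ → ℂ} (hu : Tendsto u 𝔣 (𝓝[≠] 0)) :
    Tendsto (fun τ => ‖u τ‖) 𝔣 (𝓝 0) := by
  simpa using (hu.mono_right nhdsWithin_le_nhds).norm

/-- If all coefficients of `L` below `m` vanish then `f / u^m` tends to the `m`-th
coefficient. -/
theorem hasExp_tendsto_div_zpow {𝔣 : Filter ℍ} [𝔣.NeBot] {u f : ℍ → ℂ} {L : LaurentSeries ℂ}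
    (hu : Tendsto u 𝔣 (𝓝[≠] 0)) (h : HasExp 𝔣 u f L) {m : ℤ} (hm : ∀ n < m, L.coeff n = 0) :
    Tendsto (fun τ => f τ / u τ ^ m) 𝔣 (𝓝 (L.coeff m)) := by
  have hu0 := eventually_ne_zero_of_tendsto hu
  -- a base point
  obtain ⟨τ₀, hτ₀, huτ₀⟩ := ((hasExp_eventually h).and hu0).exists
  have h0 := (hasSum_int_iff_nat hm huτ₀ _).mp hτ₀
  obtain ⟨M, hM⟩ := exists_tail_bound (c := fun k : ℕ => L.coeff (m + k)) huτ₀ h0.summable
  have hsmall : ∀ᶠ τ in 𝔣, ‖u τ‖ ≤ ‖u τ₀‖ / 2 := by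
    have hpos : 0 < ‖u τ₀‖ / 2 := half_pos (norm_pos_iff.mpr huτ₀)
    exact ((tendsto_norm_of_tendsto hu).eventually (gt_mem_nhds hpos)).mono fun τ hτ => hτ.le
  have hev : ∀ᶠ τ in 𝔣, ‖f τ / u τ ^ m - L.coeff m‖ ≤ M * ‖u τ‖ := by
    filter_upwards [hasExp_eventually h, hsmall, hu0] with τ hτ hτs hτ0
    have h1 := (hasSum_int_iff_nat hm hτ0 _).mp hτ
    have := hM (u τ) hτs _ h1
    simpa using this
  rw [tendsto_iff_norm_sub_tendsto_zero]
  refine squeeze_zero' (Eventually.of_forall fun τ => norm_nonneg _) hev ?_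
  simpa using (tendsto_norm_of_tendsto hu).const_mul M

/-- The coefficients of an expansion of a function vanishing along the filter all vanish. -/
theorem hasExp_eq_zero {𝔣 : Filter ℍ} [𝔣.NeBot] {u f : ℍ → ℂ} {L : LaurentSeries ℂ}
    (hu : Tendsto u 𝔣 (𝓝[≠] 0)) (h : HasExp 𝔣 u f L) (hf : f =ᶠ[𝔣] 0) : L = 0 := by
  -- a lower bound for the support
  obtain ⟨m₀, hm₀⟩ : ∃ m₀ : ℤ, ∀ n < m₀, L.coeff n = 0 := by
    by_cases hL : L = 0
    · exact ⟨0, fun n _ => by simp [hL]⟩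
    · exact ⟨L.order, fun n hn => HahnSeries.coeff_eq_zero_of_lt_order hn⟩
  have hu0 := eventually_ne_zero_of_tendsto hu
  have key : ∀ k : ℕ, ∀ n < m₀ + k, L.coeff n = 0 := by
    intro k
    induction k with
    | zero => simpa using hm₀
    | succ k ih =>
      intro n hn
      rcases lt_or_eq_of_le (show n ≤ m₀ + k by push_cast at hn; omega) with h1 | h1
      · exact ih n h1
      · subst h1
        have ht := hasExp_tendsto_div_zpow hu h ih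
        have ht0 : Tendsto (fun τ => f τ / u τ ^ (m₀ + (k : ℤ))) 𝔣 (𝓝 0) := by
          refine Tendsto.congr' ?_ tendsto_const_nhds
          filter_upwards [hf] with τ hτ
          simp [hτ]
        exact tendsto_nhds_unique ht ht0
  ext n
  rw [HahnSeries.coeff_zero]
  by_cases hn : n < m₀
  · exact hm₀ n hn
  · push Not at hn
    refine key ((n - m₀).toNat + 1) n ?_
    have := Int.toNat_of_nonneg (sub_nonneg.mpr hn)
    push_cast
    omega

theorem hasExp_eventuallyEq_zero {𝔣 : Filter ℍ} {u f : ℍ → ℂ}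
    (h : HasExp 𝔣 u f 0) : f =ᶠ[𝔣] 0 := by
  filter_upwards [hasExp_eventually h] with τ hτ
  have h0 : HasSum (fun n : ℤ => (0 : LaurentSeries ℂ).coeff n * u τ ^ n) 0 := by
    simp
  exact hτ.unique h0

/-- **(U2)** `L = 0` iff `f` vanishes along the filter. -/
theorem hasExp_eq_zero_iff {𝔣 : Filter ℍ} [𝔣.NeBot] {u f : ℍ → ℂ} {L : LaurentSeries ℂ}
    (hu : Tendsto u 𝔣 (𝓝[≠] 0)) (h : HasExp 𝔣 u f L) : L = 0 ↔ f =ᶠ[𝔣] 0 :=
  ⟨fun hL => hasExp_eventuallyEq_zero (hL ▸ h), hasExp_eq_zero hu h⟩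

/-- **(U1)** Uniqueness of the expansion. -/
theorem hasExp_unique {𝔣 : Filter ℍ} [𝔣.NeBot] {u f : ℍ → ℂ} {L L' : LaurentSeries ℂ}
    (hu : Tendsto u 𝔣 (𝓝[≠] 0)) (h : HasExp 𝔣 u f L) (h' : HasExp 𝔣 u f L') : L = L' := by
  have hsub : HasExp 𝔣 u (fun _ => 0) (L - L') := by
    filter_upwards [hasExp_eventually h, hasExp_eventually h'] with τ hτ hτ'
    have := hτ.sub hτ'
    simpa [sub_mul] using this
  exact sub_eq_zero.mp (hasExp_eq_zero hu hsub (Eventually.of_forall fun _ => rfl))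

theorem hasExp_congr {𝔣 : Filter ℍ} {u f g : ℍ → ℂ} {L : LaurentSeries ℂ}
    (h : HasExp 𝔣 u f L) (hfg : f =ᶠ[𝔣] g) : HasExp 𝔣 u g L := by
  filter_upwards [hasExp_eventually h, hfg] with τ hτ hτ'
  rw [← hτ']
  exact hτ

/-- Uniqueness, for functions agreeing along the filter. -/
theorem hasExp_unique_of_eventuallyEq {𝔣 : Filter ℍ} [𝔣.NeBot] {u f g : ℍ → ℂ}
    {L L' : LaurentSeries ℂ} (hu : Tendsto u 𝔣 (𝓝[≠] 0))
    (h : HasExp 𝔣 u f L) (h' : HasExp 𝔣 u g L') (hfg : f =ᶠ[𝔣] g) : L = L' :=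
  hasExp_unique hu (hasExp_congr h hfg) h'

/-- **(U3)** The order of the expansion is read off from the limit of `f / u^order`. -/
theorem hasExp_tendsto_div_zpow_order {𝔣 : Filter ℍ} [𝔣.NeBot] {u f : ℍ → ℂ}
    {L : LaurentSeries ℂ} (hu : Tendsto u 𝔣 (𝓝[≠] 0)) (h : HasExp 𝔣 u f L) :
    Tendsto (fun τ => f τ / u τ ^ L.order) 𝔣 (𝓝 L.leadingCoeff) := by
  by_cases hL : L = 0
  · subst hL
    have := hasExp_tendsto_div_zpow hu h (m := 0) (fun n _ => by simp)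
    simpa using this
  · have := hasExp_tendsto_div_zpow hu h (m := L.order)
      (fun n hn => HahnSeries.coeff_eq_zero_of_lt_order hn)
    rwa [← HahnSeries.leadingCoeff_eq] at this

/-- Characterisation of the order: if `f / u^m` tends to a nonzero limit then `order L = m`. -/
theorem hasExp_order_eq_of_tendsto {𝔣 : Filter ℍ} [𝔣.NeBot] {u f : ℍ → ℂ}
    {L : LaurentSeries ℂ} (hu : Tendsto u 𝔣 (𝓝[≠] 0)) (h : HasExp 𝔣 u f L) {m : ℤ} {a : ℂ}
    (ha : a ≠ 0) (hlim : Tendsto (fun τ => f τ / u τ ^ m) 𝔣 (𝓝 a)) :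
    L.order = m ∧ L.leadingCoeff = a := by
  have hu0 := eventually_ne_zero_of_tendsto hu
  have hL : L ≠ 0 := by
    rintro rfl
    have h0 := hasExp_eventuallyEq_zero h
    have : Tendsto (fun τ => f τ / u τ ^ m) 𝔣 (𝓝 0) := by
      refine Tendsto.congr' ?_ tendsto_const_nhds
      filter_upwards [h0] with τ hτ
      simp [hτ]
    exact ha (tendsto_nhds_unique hlim this)
  have hord := hasExp_tendsto_div_zpow_order hu h
  have hlc : L.leadingCoeff ≠ 0 := HahnSeries.leadingCoeff_ne_zero.mpr hL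
  -- compare the two limits
  have hq : ∀ k : ℤ, 0 < k → Tendsto (fun τ => u τ ^ k) 𝔣 (𝓝 0) := by
    intro k hk
    obtain ⟨n, rfl⟩ := Int.eq_ofNat_of_zero_le hk.le
    have hn : n ≠ 0 := by rintro rfl; simp at hk
    simpa [zero_pow hn] using (hu.mono_right nhdsWithin_le_nhds).pow n
  rcases lt_trichotomy L.order m with hlt | heq | hgt
  · exfalso
    have h1 : Tendsto (fun τ => f τ / u τ ^ m * u τ ^ (m - L.order)) 𝔣
        (𝓝 (a * 0)) := hlim.mul (hq _ (sub_pos.mpr hlt))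
    have h2 : (fun τ => f τ / u τ ^ m * u τ ^ (m - L.order)) =ᶠ[𝔣]
        fun τ => f τ / u τ ^ L.order := by
      filter_upwards [hu0] with τ hτ
      rw [zpow_sub₀ hτ]
      field_simp [zpow_ne_zero _ hτ]
    rw [mul_zero] at h1
    exact hlc (tendsto_nhds_unique hord (h1.congr' h2))
  · subst heq
    exact ⟨rfl, tendsto_nhds_unique hord hlim⟩
  · exfalso
    have h1 : Tendsto (fun τ => f τ / u τ ^ L.order * u τ ^ (L.order - m)) 𝔣
        (𝓝 (L.leadingCoeff * 0)) := hord.mul (hq _ (sub_pos.mpr hgt))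
    have h2 : (fun τ => f τ / u τ ^ L.order * u τ ^ (L.order - m)) =ᶠ[𝔣]
        fun τ => f τ / u τ ^ m := by
      filter_upwards [hu0] with τ hτ
      rw [zpow_sub₀ hτ]
      field_simp [zpow_ne_zero _ hτ]
    rw [mul_zero] at h1
    exact ha (tendsto_nhds_unique hlim (h1.congr' h2))

end Fermat.Agent.S24.H62

end
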