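/-
S24, package AN-EXP (backup seat helper62): Cauchy product, transport along affine maps and
moderate growth for expansions at `i∞`, stated without `scaleHom` (which lives in `Exp.lean`).
-/
import Mathlib
import Fermat.Agent.S24.ModDefs
import Fermat.Agent.S24.H62.ExpUnique

set_option autoImplicit false

open UpperHalfPlane Filter Topology
open scoped Real MatrixGroups

noncomputable section

namespace Fermat.Agent.S24.H62

/-! ### Cauchy product of Laurent series -/

theorem eq_single_mul_powerSeriesPart (L M : LaurentSeries ℂ) :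
    L * M = HahnSeries.single (L.order + M.order) (1 : ℂ) *
      HahnSeries.ofPowerSeries ℤ ℂ (L.powerSeriesPart * M.powerSeriesPart) := by
  conv_lhs => rw [← LaurentSeries.single_order_mul_powerSeriesPart L,
    ← LaurentSeries.single_order_mul_powerSeriesPart M]
  rw [map_mul, mul_mul_mul_comm, HahnSeries.single_mul_single, mul_one]

theorem coeff_mul_of_lt (L M : LaurentSeries ℂ) {n : ℤ} (hn : n < L.order + M.order) :
    (L * M).coeff n = 0 := by
  rw [eq_single_mul_powerSeriesPart, HahnSeries.coeff_single_mul, one_mul,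
    HahnSeries.ofPowerSeries_apply, HahnSeries.embDomain_of_notMem_range]
  simp only [Nat.castOrderEmbedding_apply, Set.mem_range, not_exists]
  intro k hk
  omega

theorem coeff_mul_order_add (L M : LaurentSeries ℂ) (n : ℕ) :
    (L * M).coeff (L.order + M.order + n) =
      ∑ kl ∈ Finset.HasAntidiagonal.antidiagonal n, L.coeff (L.order + kl.1) * M.coeff (M.order + kl.2) := by
  rw [eq_single_mul_powerSeriesPart, add_comm (L.order + M.order) (n : ℤ),
    HahnSeries.coeff_single_mul_add, one_mul, HahnSeries.ofPowerSeries_apply_coeff,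
    PowerSeries.coeff_mul]
  simp only [LaurentSeries.powerSeriesPart_coeff]

/-- Pointwise Cauchy product for convergent Laurent sums. -/
theorem hasSum_mul {L M : LaurentSeries ℂ} {u a b : ℂ} (hu : u ≠ 0)
    (h1 : HasSum (fun n : ℤ => L.coeff n * u ^ n) a)
    (h2 : HasSum (fun n : ℤ => M.coeff n * u ^ n) b) :
    HasSum (fun n : ℤ => (L * M).coeff n * u ^ n) (a * b) := by
  have hL := (hasSum_int_iff_nat (m := L.order)
    (fun n hn => HahnSeries.coeff_eq_zero_of_lt_order hn) hu a).mp h1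
  have hM := (hasSum_int_iff_nat (m := M.order)
    (fun n hn => HahnSeries.coeff_eq_zero_of_lt_order hn) hu b).mp h2
  have hLn : Summable fun k : ℕ => ‖L.coeff (L.order + k) * u ^ k‖ :=
    summable_norm_iff.mpr hL.summable
  have hMn : Summable fun k : ℕ => ‖M.coeff (M.order + k) * u ^ k‖ :=
    summable_norm_iff.mpr hM.summable
  have hprod := tsum_mul_tsum_eq_tsum_sum_antidiagonal_of_summable_norm hLn hMn
  have hsum := (summable_norm_sum_mul_antidiagonal_of_summable_norm hLn hMn).of_norm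
  have hterm : ∀ n : ℕ, (∑ kl ∈ Finset.HasAntidiagonal.antidiagonal n,
      (L.coeff (L.order + kl.1) * u ^ kl.1) * (M.coeff (M.order + kl.2) * u ^ kl.2)) =
      (L * M).coeff (L.order + M.order + n) * u ^ n := by
    intro n
    rw [coeff_mul_order_add, Finset.sum_mul]
    refine Finset.sum_congr rfl fun kl hkl => ?_
    have : kl.1 + kl.2 = n := Finset.HasAntidiagonal.mem_antidiagonal.mp hkl
    rw [← this, pow_add]
    ring
  have hS : HasSum (fun n : ℕ => (L * M).coeff (L.order + M.order + n) * u ^ n)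
      (a / u ^ L.order * (b / u ^ M.order)) := by
    have := hsum.hasSum
    rw [← hprod, hL.tsum_eq, hM.tsum_eq] at this
    simpa only [hterm] using this
  rw [hasSum_int_iff_nat (m := L.order + M.order) (fun n hn => coeff_mul_of_lt L M hn) hu]
  have e : a * b / u ^ (L.order + M.order) = a / u ^ L.order * (b / u ^ M.order) := by
    rw [zpow_add₀ hu]
    field_simp [zpow_ne_zero _ hu]
  rw [e]
  exact hS

/-! ### Reindexing along `n ↦ m n` -/

theorem hasSum_expand_scale {c e : ℤ → ℂ} {m : ℕ} (hm : m ≠ 0) {ζ u s : ℂ}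
    (h1 : ∀ n : ℤ, e ((m : ℤ) * n) = ζ ^ n * c n) (h2 : ∀ k : ℤ, ¬ (m : ℤ) ∣ k → e k = 0)
    (h : HasSum (fun n : ℤ => c n * (ζ * u ^ m) ^ n) s) :
    HasSum (fun k : ℤ => e k * u ^ k) s := by
  have hm' : (m : ℤ) ≠ 0 := by exact_mod_cast hm
  have hinj : Function.Injective (fun n : ℤ => (m : ℤ) * n) := mul_right_injective₀ hm'
  have hsupp : ∀ k ∉ Set.range (fun n : ℤ => (m : ℤ) * n), e k * u ^ k = 0 := by
    intro k hk
    rw [h2 k (fun ⟨n, hn⟩ => hk ⟨n, hn.symm⟩), zero_mul]
  rw [← hinj.hasSum_iff hsupp]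
  have e' : ((fun k : ℤ => e k * u ^ k) ∘ fun n : ℤ => (m : ℤ) * n) =
      fun n : ℤ => c n * (ζ * u ^ m) ^ n := by
    funext n
    simp only [Function.comp_apply]
    rw [h1, mul_zpow, zpow_mul, zpow_natCast]
    ring
  rw [e']
  exact h

/-! ### Transport along `τ ↦ (A τ + B) / D` -/

theorem im_affine_pos (A B D : ℕ) (hA : 0 < A) (hD : 0 < D) (τ : ℍ) :
    0 < (((A : ℂ) * τ + B) / D).im := by
  have h : (((A : ℂ) * τ + B) / D).im = A * τ.im / D := by
    rw [show ((A : ℂ) * τ + B) / D = (((A : ℂ) * τ + B)) / ((D : ℝ) : ℂ) by simp,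
      Complex.div_ofReal_im]
    simp
  rw [h]
  have := τ.im_pos
  positivity

theorem im_ofComplex_affine (A B D : ℕ) (hA : 0 < A) (hD : 0 < D) (τ : ℍ) :
    (ofComplex (((A : ℂ) * τ + B) / D)).im = A * τ.im / D := by
  rw [ofComplex_apply_of_im_pos (im_affine_pos A B D hA hD τ)]
  show (((A : ℂ) * τ + B) / D).im = A * τ.im / D
  rw [show ((A : ℂ) * τ + B) / D = (((A : ℂ) * τ + B)) / ((D : ℝ) : ℂ) by simp,
    Complex.div_ofReal_im]
  simp

theorem tendsto_ofComplex_affine (A B D : ℕ) (hA : 0 < A) (hD : 0 < D) :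
    Tendsto (fun τ : ℍ => ofComplex (((A : ℂ) * τ + B) / D)) atImInfty atImInfty := by
  rw [atImInfty, tendsto_comap_iff]
  have e : (UpperHalfPlane.im ∘ fun τ : ℍ => ofComplex (((A : ℂ) * τ + B) / D)) =
      fun τ : ℍ => (A / D : ℝ) * τ.im := by
    funext τ
    simp only [Function.comp_apply, im_ofComplex_affine A B D hA hD τ]
    ring
  rw [e]
  have hAD : (0 : ℝ) < A / D := by positivity
  exact Tendsto.const_mul_atTop hAD tendsto_comap

theorem qN_one_affine (N A B D m : ℕ) [NeZero N] (hA : 0 < A) (hD : 0 < D)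
    (hm : m * D = N * A) (τ : ℍ) :
    qN 1 (ofComplex (((A : ℂ) * τ + B) / D)) =
      Complex.exp (2 * π * Complex.I * B / D) * qN N τ ^ m := by
  have hN : (N : ℂ) ≠ 0 := Nat.cast_ne_zero.mpr (NeZero.ne N)
  have hD' : (D : ℂ) ≠ 0 := Nat.cast_ne_zero.mpr hD.ne'
  have hm' : (m : ℂ) * D = N * A := by exact_mod_cast congrArg (Nat.cast : ℕ → ℂ) hm
  rw [qN, qN, ofComplex_apply_of_im_pos (im_affine_pos A B D hA hD τ)]
  simp only [Function.Periodic.qParam]
  rw [← Complex.exp_nat_mul, ← Complex.exp_add]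
  congr 1
  have hmm : (m : ℂ) = N * A / D := by
    rw [eq_div_iff hD', hm']
  push_cast
  rw [hmm]
  field_simp
  ring

/-- Transport along `τ ↦ (A τ + B) / D`, for any Laurent series `E` with the expected
coefficients. -/
theorem hasExp_comp_affine {f : ℍ → ℂ} {L : LaurentSeries ℂ}
    (hf : HasExp atImInfty (qN 1) f L) (N A B D m : ℕ) [NeZero N] (hm0 : m ≠ 0)
    (hA : 0 < A) (hD : 0 < D) (hm : m * D = N * A) (ζ : ℂ)
    (hζ : ζ = Complex.exp (2 * π * Complex.I * B / D)) (E : LaurentSeries ℂ)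
    (h1 : ∀ n : ℤ, E.coeff ((m : ℤ) * n) = ζ ^ n * L.coeff n)
    (h2 : ∀ k : ℤ, ¬ (m : ℤ) ∣ k → E.coeff k = 0) :
    HasExp atImInfty (qN N) (fun τ => f (ofComplex (((A : ℂ) * τ + B) / D))) E := by
  have hev := (tendsto_ofComplex_affine A B D hA hD).eventually (hasExp_eventually hf)
  filter_upwards [hev] with τ hτ
  rw [qN_one_affine N A B D m hA hD hm τ, ← hζ] at hτ
  exact hasSum_expand_scale hm0 h1 h2 hτ

/-! ### Transport along `τ ↦ τ + k` -/

theorem tendsto_T_zpow_smul (k : ℤ) :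
    Tendsto (fun τ : ℍ => ModularGroup.T ^ k • τ) atImInfty atImInfty := by
  rw [atImInfty, tendsto_comap_iff]
  have e : (UpperHalfPlane.im ∘ fun τ : ℍ => ModularGroup.T ^ k • τ) = UpperHalfPlane.im := by
    funext τ
    simp only [Function.comp_apply, modular_T_zpow_smul, vadd_im]
  rw [e]
  exact tendsto_comap

theorem qN_T_zpow_smul (N : ℕ) [NeZero N] (k : ℤ) (τ : ℍ) :
    qN N (ModularGroup.T ^ k • τ) = Complex.exp (2 * π * Complex.I * k / N) * qN N τ := by
  rw [qN, qN, modular_T_zpow_smul, coe_vadd]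
  simp only [Function.Periodic.qParam]
  rw [← Complex.exp_add]
  congr 1
  push_cast
  ring

/-- Transport along `τ ↦ τ + k`, for any Laurent series `E` with the expected coefficients. -/
theorem hasExp_comp_T_zpow {f : ℍ → ℂ} {L : LaurentSeries ℂ} (N : ℕ) [NeZero N]
    (hf : HasExp atImInfty (qN N) f L) (k : ℤ) (ζ : ℂ)
    (hζ : ζ = Complex.exp (2 * π * Complex.I * k / N)) (E : LaurentSeries ℂ)
    (h1 : ∀ n : ℤ, E.coeff n = ζ ^ n * L.coeff n) :
    HasExp atImInfty (qN N) (fun τ => f (ModularGroup.T ^ k • τ)) E := by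
  have hev := (tendsto_T_zpow_smul k).eventually (hasExp_eventually hf)
  filter_upwards [hev] with τ hτ
  rw [qN_T_zpow_smul N k τ, ← hζ] at hτ
  have e : (fun n : ℤ => E.coeff n * qN N τ ^ n) =
      fun n : ℤ => L.coeff n * (ζ * qN N τ) ^ n := by
    funext n
    rw [h1, mul_zpow]
    ring
  rw [e]
  exact hτ

/-! ### Moderate growth -/

theorem qN_pow_self (N : ℕ) [NeZero N] (τ : ℍ) : qN N τ ^ N = qN 1 τ := by
  have hN : (N : ℂ) ≠ 0 := Nat.cast_ne_zero.mpr (NeZero.ne N)
  rw [qN, qN]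
  simp only [Function.Periodic.qParam]
  rw [← Complex.exp_nat_mul]
  congr 1
  push_cast
  field_simp

theorem tendsto_discriminant_div_qN :
    Tendsto (fun τ : ℍ => ModularForm.discriminant τ / qN 1 τ) atImInfty (𝓝 1) := by
  refine ModularForm.tendsto_atImInfty_tprod_one_sub_eta_q_pow.congr fun τ => ?_
  rw [ModularForm.discriminant_eq_q_prod, qN]
  have : Function.Periodic.qParam ((1 : ℕ) : ℝ) (τ : ℂ) ≠ 0 := Function.Periodic.qParam_ne_zero _
  simp only [Nat.cast_one] at this ⊢
  rw [mul_div_cancel_left₀ _ this]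

/-- Moderate growth of a function with an expansion at `i∞`. -/
theorem hasExp_isBoundedAtImInfty {f : ℍ → ℂ} {L : LaurentSeries ℂ} (N : ℕ) [NeZero N]
    (hf : HasExp atImInfty (qN N) f L) (M : ℕ) (hM : -((N * M : ℕ) : ℤ) ≤ L.order) :
    IsBoundedAtImInfty (fun τ => ModularForm.discriminant τ ^ M * f τ) := by
  have hm : ∀ n < -((N * M : ℕ) : ℤ), L.coeff n = 0 := fun n hn =>
    HahnSeries.coeff_eq_zero_of_lt_order (lt_of_lt_of_le hn hM)
  have ht := hasExp_tendsto_div_zpow (tendsto_qN_nhdsNE N) hf hm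
  have hlim := (tendsto_discriminant_div_qN.pow M).mul ht
  have e : (fun τ : ℍ => (ModularForm.discriminant τ / qN 1 τ) ^ M *
      (f τ / qN N τ ^ (-((N * M : ℕ) : ℤ)))) =
      fun τ => ModularForm.discriminant τ ^ M * f τ := by
    funext τ
    have hq := qN_ne_zero N τ
    rw [← qN_pow_self N τ, zpow_neg, zpow_natCast, pow_mul, div_pow]
    field_simp
  rw [e] at hlim
  exact hlim.isBigO_one ℝ

end Fermat.Agent.S24.H62

end
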