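/-
S24, package AN-EXP (backup seat helper62): moderate growth of a function with an expansion
at `i∞`, in the shape requested by helper89 (owner of `Exp.lean`).
-/
import Fermat.Agent.S24.H62.ExpMore

set_option autoImplicit false

open UpperHalfPlane Filter Topology

noncomputable section

namespace Fermat.Agent.S24.H62

theorem isBoundedAtImInfty_of_hasExp {f : ℍ → ℂ} {L : LaurentSeries ℂ} (N : ℕ) [NeZero N]
    (hf : HasExp atImInfty (qN N) f L) (M : ℕ) (hM : -((N * M : ℕ) : ℤ) ≤ L.order) :
    IsBoundedAtImInfty (fun τ => ModularForm.discriminant τ ^ M * f τ) :=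
  hasExp_isBoundedAtImInfty N hf M hM

end Fermat.Agent.S24.H62

end
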